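import Fermat.Agent.S17.W.Defs
import Fermat.Agent.S17.FND.Skel

/-!
# S17 / WB: `weil_nondegenerate` (frozen statement of helper5016's `WB/Skel.lean` v1) PROVED from
the frozen FND statements (`FND/Skel.lean` v0 of helper8457) — helper4056

Direct route (notes of helper357 / helper5157 / helper5254 / helper2578): no Tsen, no Tate cohomology,
no genus of the cover, no torsion count (`hcount` is not used), and no K1 splitting analysis either:
the only facts about the quadratic cover `L = F(z)`, `z ^ 2 = f`, `τ z = -z` that enter are the generic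
FND cover statements (`fiber_nonempty`, `inertiaDeg_eq_one`, `pushforwardNormFormula`, `evalAt_norm`,
`evalAt_algebraMap_cover`, `isCurveOver_of_finite`, `essFiniteType_of_finite`), Weil reciprocity on
`L` and on `F`, weak approximation on `L` and on `F`, and `z(τ P') = - z(P')`.

Paper proof.  `s = [E]`, `2E = div f`, `E` not principal, so `f` is not a square; `L := F[X]/(X²-f)`.
 1. `P` a place of `F` off `supp E`, `P'` above `P`, `Q' = τ P'`, `B = P' - Q'` (degree `0`).
 2. `[B] = 2y` (divisibility on `L`), `y = [D₀]`; moving lemma: `D' = D₀ + div u₀` vanishing above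
    `supp E ∪ {P}`; `div w₁ = 2D' - B`.
 3. `E' := π_* D'`, `g := N w₁`: `div g = 2E'` (norm formula), `supp E'` off `supp E`.
 4. `f(E') = f(D') = z(D')² = z(2D') = z(div w₁) · z(P')/z(Q') = - w₁(div z) = - w₁(π^*E) = - g(E)`.
 5. Independence of the representatives (Weil reciprocity on `F` + moving lemma) turns
    `f(E') = -g(E)` into `¬ WeilTrivial [E'] s`.
-/

set_option autoImplicit false

noncomputable section

namespace Fermat.Agent.S17.WB.H4056

open AlgebraicCurve Fermat.Agent.S17 Fermat.Agent.S17.W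

/-! ## 0. Unit-valued evaluation -/

section Defs

variable {K F : Type*} [Field K] [Field F] [Algebra K F]

/-- `f` is a unit at `v`. -/
def IsU (v : Place K F) (f : F) : Prop := f ≠ 0 ∧ v.ord f = 0

open Classical in
/-- The value `f(v)` as a unit of `K` (junk value `1` if `f(v) = 0`). -/
def evU (v : Place K F) (f : F) : Kˣ :=
  if h : FND.evalAt v f = 0 then 1 else Units.mk0 (FND.evalAt v f) h

theorem evU_val {v : Place K F} {f : F} (h : FND.evalAt v f ≠ 0) :
    ((evU v f : Kˣ) : K) = FND.evalAt v f := by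
  unfold evU
  rw [dif_neg h]
  rfl

/-- `f(D)` as an additive map in `D`, with values in `Additive Kˣ`. -/
def edU (f : F) : Divisor K F →+ Additive Kˣ :=
  Finsupp.liftAddHom fun v => zmultiplesHom (Additive Kˣ) (Additive.ofMul (evU v f))

theorem edU_single (f : F) (v : Place K F) (n : ℤ) :
    edU f (Finsupp.single v n) = n • Additive.ofMul (evU v f) := by
  simp [edU]

theorem edU_apply (f : F) (D : Divisor K F) :
    edU f D = D.sum fun v n => n • Additive.ofMul (evU v f) := by
  simp only [edU, Finsupp.liftAddHom_apply]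
  rfl

theorem evalDiv_eq_edU {f : F} {D : Divisor K F} (h : ∀ v ∈ D.support, FND.evalAt v f ≠ 0) :
    FND.evalDiv f D = ((Additive.toMul (edU f D) : Kˣ) : K) := by
  rw [edU_apply, FND.evalDiv, Finsupp.prod, Finsupp.sum, toMul_sum, Units.coe_prod]
  refine Finset.prod_congr rfl fun v hv => ?_
  rw [toMul_zsmul, toMul_ofMul, Units.val_zpow_eq_zpow_val, evU_val (h v hv)]

theorem hom_eq_of_single {α N : Type*} [AddCommMonoid N] (φ ψ : (α →₀ ℤ) →+ N) (E : α →₀ ℤ)
    (h : ∀ v ∈ E.support, ∀ n : ℤ, φ (Finsupp.single v n) = ψ (Finsupp.single v n)) :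
    φ E = ψ E := by
  conv_lhs => rw [← Finsupp.sum_single E]
  conv_rhs => rw [← Finsupp.sum_single E]
  simp only [Finsupp.sum, map_sum]
  exact Finset.sum_congr rfl fun v hv => h v hv _

end Defs

/-! ## 1. API on one function field (from FND) -/

section API

variable {K F : Type*} [Field K] [Field F] [Algebra K F]
variable [IsAlgClosed K] [CharZero K] [IsCurveOver K F] [Algebra.EssFiniteType K F]

theorem IsU.mem {v : Place K F} {f : F} (h : IsU v f) : f ∈ v.toValuationSubring :=
  (FND.mem_valuationSubring_iff v f).mpr h.2.ge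

theorem IsU.evalAt_ne_zero {v : Place K F} {f : F} (h : IsU v f) : FND.evalAt v f ≠ 0 := by
  rw [Ne, FND.evalAt_eq_zero_iff v h.mem]
  rintro (h0 | h0)
  · exact h.1 h0
  · rw [h.2] at h0
    exact lt_irrefl _ h0

omit [IsAlgClosed K] [CharZero K] [IsCurveOver K F] [Algebra.EssFiniteType K F] in
theorem IsU.mul {v : Place K F} {f g : F} (hf : IsU v f) (hg : IsU v g) : IsU v (f * g) :=
  ⟨mul_ne_zero hf.1 hg.1, by rw [v.ord_mul hf.1 hg.1, hf.2, hg.2, add_zero]⟩

theorem evU_mul {v : Place K F} {f g : F} (hf : IsU v f) (hg : IsU v g) :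
    evU v (f * g) = evU v f * evU v g := by
  apply Units.ext
  rw [Units.val_mul, evU_val (hf.mul hg).evalAt_ne_zero, evU_val hf.evalAt_ne_zero,
    evU_val hg.evalAt_ne_zero, FND.evalAt_mul v hf.mem hg.mem]

theorem edU_mul {f g : F} {D : Divisor K F} (hf : ∀ v ∈ D.support, IsU v f)
    (hg : ∀ v ∈ D.support, IsU v g) : edU (f * g) D = edU f D + edU g D := by
  rw [edU_apply, edU_apply, edU_apply, ← Finsupp.sum_add]
  refine Finsupp.sum_congr fun v hv => ?_
  rw [evU_mul (hf v hv) (hg v hv), ofMul_mul, zsmul_add]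

theorem evalDiv_eq_edU' {f : F} {D : Divisor K F} (h : ∀ v ∈ D.support, IsU v f) :
    FND.evalDiv f D = ((Additive.toMul (edU f D) : Kˣ) : K) :=
  evalDiv_eq_edU fun v hv => (h v hv).evalAt_ne_zero

/-- `(σ x)(σ w) = x(w)` for a `K`-automorphism `σ`. -/
theorem evalAt_smul_algEquiv (σ : F ≃ₐ[K] F) (w : Place K F) {x : F} (hx : IsU w x) :
    FND.evalAt (σ • w) (σ x) = FND.evalAt w x := by
  have hmem : σ x ∈ (σ • w).toValuationSubring :=
    (FND.mem_valuationSubring_iff (σ • w) (σ x)).mpr (by rw [Place.ord_smul]; exact hx.2.ge)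
  rw [FND.evalAt_eq_iff (σ • w) hmem]
  rcases (FND.evalAt_eq_iff w hx.mem (FND.evalAt w x)).mp rfl with h | h
  · left
    conv_lhs => rw [h]
    exact σ.commutes _
  · right
    have : σ x - algebraMap K F (FND.evalAt w x) = σ (x - algebraMap K F (FND.evalAt w x)) := by
      rw [map_sub, σ.commutes]
    rw [this, Place.ord_smul]
    exact h

end API

/-! ## 2. Finite covers (from FND, leaf E) -/

section Cover

variable {K F L : Type*} [Field K] [Field F] [Field L] [Algebra K F] [Algebra K L] [Algebra F L]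
  [IsScalarTower K F L]
variable [IsAlgClosed K] [CharZero K] [IsCurveOver K F] [Algebra.EssFiniteType K F]
  [Module.Finite F L] [IsCurveOver K L] [Algebra.EssFiniteType K L]

theorem evU_algebraMap (w : Place K L) (a : F) :
    evU w (algebraMap F L a) = evU (w.restrict F) a := by
  have h := FND.evalAt_algebraMap_cover w a
  unfold evU
  by_cases h0 : FND.evalAt (w.restrict F) a = 0
  · rw [dif_pos h0, dif_pos (h.trans h0)]
  · rw [dif_neg h0, dif_neg (fun h1 => h0 (h ▸ h1))]
    exact Units.ext h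

theorem edU_pushforward (a : F) (D' : Divisor K L) :
    edU a (Divisor.pushforward F D') = edU (algebraMap F L a) D' := by
  have : (edU a).comp (Divisor.pushforward (K := K) (F' := L) F) = edU (algebraMap F L a) := by
    refine Finsupp.addHom_ext fun w n => ?_
    rw [AddMonoidHom.comp_apply, Divisor.pushforward_single, edU_single, edU_single,
      FND.inertiaDeg_eq_one, evU_algebraMap]
    simp
  exact DFunLike.congr_fun this D'

theorem evU_norm (v : Place K F) {h : L} (hh : ∀ w ∈ v.fiber L, IsU w h) :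
    evU v (Algebra.norm F h) = ∏ w ∈ v.fiber L, evU w h ^ (w.ramificationIndex F) := by
  have h1 := FND.evalAt_norm v (h := h) (fun w hw => (hh w hw).2)
  have h2 : FND.evalAt v (Algebra.norm F h) ≠ 0 := by
    rw [h1]
    exact Finset.prod_ne_zero_iff.mpr fun w hw => pow_ne_zero _ (hh w hw).evalAt_ne_zero
  apply Units.ext
  rw [evU_val h2, h1, Units.coe_prod]
  refine Finset.prod_congr rfl fun w hw => ?_
  rw [Units.val_pow_eq_pow_val, evU_val (hh w hw).evalAt_ne_zero]

theorem edU_pullback {h : L} {E : Divisor K F}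
    (hu : ∀ v ∈ E.support, ∀ w ∈ v.fiber L, IsU w h) :
    edU h (Divisor.pullback L E) = edU (Algebra.norm F h) E := by
  refine hom_eq_of_single ((edU h).comp (Divisor.pullback L)) (edU (Algebra.norm F h)) E
    fun v hv n => ?_
  rw [AddMonoidHom.comp_apply, Divisor.pullback_single, map_sum, edU_single,
    evU_norm v (hu v hv), ofMul_prod, ← Finset.sum_zsmul]
  refine Finset.sum_congr rfl fun w hw => ?_
  rw [edU_single, ofMul_pow, mul_zsmul, natCast_zsmul]

omit [IsAlgClosed K] [CharZero K] [IsCurveOver K F] [Algebra.EssFiniteType K F]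
  [IsCurveOver K L] [Algebra.EssFiniteType K L] in
theorem restrict_tau_smul (w : Place K L) (τ : L ≃ₐ[F] L) :
    ((τ.restrictScalars K) • w).restrict F = w.restrict F := by
  apply Place.ext
  ext g
  simp only [Place.restrict_toValuationSubring, ValuationSubring.mem_comap,
    Place.smul_toValuationSubring]
  rw [ValuationSubring.mem_pointwise_smul_iff_inv_smul_mem]
  have : (τ.restrictScalars K)⁻¹ • algebraMap F L g = algebraMap F L g := by
    show τ.symm (algebraMap F L g) = algebraMap F L g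
    exact τ.symm.commutes g
  rw [this]

omit [IsAlgClosed K] [CharZero K] [IsCurveOver K F] [Algebra.EssFiniteType K F]
  [IsCurveOver K L] [Algebra.EssFiniteType K L] in
/-- `div z = π^* E` when `z ^ 2 = f`, `div f = 2E`. -/
theorem ord_sqrt {f : F} {z : L} (hz : z ^ 2 = algebraMap F L f) {E : Divisor K F}
    (hE : IsDivOf f (2 • E)) (w : Place K L) :
    w.ord z = (w.ramificationIndex F : ℤ) * E (w.restrict F) := by
  have h1 : w.ord (z ^ 2) = 2 * w.ord z := by
    have := w.ord_zpow z 2
    rwa [zpow_ofNat] at this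
  have h2 := hE.2 (w.restrict F)
  rw [Finsupp.smul_apply] at h2
  rw [hz, w.ord_restrict, ← h2] at h1
  simp only [nsmul_eq_mul, Nat.cast_ofNat] at h1
  linarith

/-- Steps 1–2: the divisor `D'` and the function `w₁` on the cover. -/
theorem exists_cover_datum (hdivL : ∀ c : Pic0 K L, ∃ y : Pic0 K L, (2 : ℕ) • y = c)
    (P' Q' : Place K L) (T : Finset (Place K L)) :
    ∃ (D' : Divisor K L) (w₁ : L), w₁ ≠ 0 ∧ Divisor.degree D' = 0 ∧ (∀ w ∈ T, D' w = 0) ∧
      ∀ w : Place K L,
        w.ord w₁ = 2 * D' w - (Finsupp.single P' (1 : ℤ) - Finsupp.single Q' 1 : Divisor K L) w := by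
  set B : Divisor K L := Finsupp.single P' (1 : ℤ) - Finsupp.single Q' 1 with hB
  have hBdeg : B ∈ Divisor.degZero (K := K) (F := L) := by
    rw [Divisor.mem_degZero, hB, map_sub, Divisor.degree_single, Divisor.degree_single,
      IsCurveOver.deg_eq_one_of_isAlgClosed, IsCurveOver.deg_eq_one_of_isAlgClosed]
    simp
  obtain ⟨y, hy⟩ := hdivL (Pic0.mk ⟨B, hBdeg⟩)
  obtain ⟨D₀, rfl⟩ := Pic0.mk_surjective y
  have hmem : -((2 : ℕ) • D₀) + (⟨B, hBdeg⟩ : Divisor.degZero (K := K) (F := L)) ∈
      (Divisor.principal (K := K) (F := L)).addSubgroupOf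
        (Divisor.degZero (K := K) (F := L)) := by
    have : Pic0.mk ((2 : ℕ) • D₀) = Pic0.mk ⟨B, hBdeg⟩ := by
      rw [← hy]
      rfl
    exact QuotientAddGroup.eq.mp this
  rw [AddSubgroup.mem_addSubgroupOf] at hmem
  obtain ⟨w₀, hw₀, hw₀D⟩ := hmem
  obtain ⟨u₀, hu₀, hu₀T⟩ := FND.exists_ord_eq T (fun w => -(D₀ : Divisor K L) w)
  refine ⟨(D₀ : Divisor K L) + FND.divF u₀, w₀⁻¹ * u₀ ^ 2,
    mul_ne_zero (inv_ne_zero hw₀) (pow_ne_zero 2 hu₀), ?_, ?_, ?_⟩
  · rw [map_add, FND.degree_divF, add_zero]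
    exact D₀.2
  · intro w hw
    rw [Finsupp.add_apply, FND.divF_apply, hu₀T w hw, add_neg_cancel]
  · intro w
    have h1 := hw₀D w
    have h2 : w.ord (u₀ ^ 2) = 2 * w.ord u₀ := by
      have := w.ord_zpow u₀ 2
      rwa [zpow_ofNat] at this
    rw [w.ord_mul (inv_ne_zero hw₀) (pow_ne_zero 2 hu₀), w.ord_inv, ← h1, h2,
      Finsupp.add_apply, FND.divF_apply]
    simp only [AddSubgroup.coe_add, AddSubgroup.coe_neg, AddSubgroup.coe_nsmul,
      Finsupp.add_apply, Finsupp.neg_apply, Finsupp.smul_apply, nsmul_eq_mul, Nat.cast_ofNat]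
    ring

/-- **Main computation.**  `L = F(z)`, `z ^ 2 = f`, `τ z = -z`, `div f = 2E`, `Pic⁰ L` is
`2`-divisible.  Then there are `E'` of degree `0` and `g` with `div g = 2E'`, `E'` vanishing on
`supp E ∪ S`, and `f(E') = - g(E)`. -/
theorem exists_pairing_neg_of_cover
    (hdivL : ∀ c : Pic0 K L, ∃ y : Pic0 K L, (2 : ℕ) • y = c)
    {f : F} {z : L} (hz : z ^ 2 = algebraMap F L f) (τ : L ≃ₐ[F] L) (hτ : τ z = -z)
    {E : Divisor K F} (hE : IsDivOf f (2 • E)) (S : Finset (Place K F)) :
    ∃ (E' : Divisor K F) (g : F), Divisor.degree E' = 0 ∧ IsDivOf g (2 • E') ∧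
      (∀ v ∈ E.support, E' v = 0) ∧ (∀ v ∈ S, E' v = 0) ∧
      FND.evalDiv f E' = - FND.evalDiv g E := by
  classical
  have hf0 : f ≠ 0 := hE.1
  have hz0 : z ≠ 0 := by
    rintro rfl
    rw [zero_pow two_ne_zero] at hz
    exact hf0 ((algebraMap F L).injective (by rw [map_zero]; exact hz.symm))
  have hzord := ord_sqrt (K := K) hz hE
  -- Step 1: the places
  have := FND.infinite_place K F
  obtain ⟨P, hP⟩ := Infinite.exists_notMem_finset (E.support ∪ S)
  obtain ⟨P', hP'⟩ := FND.fiber_nonempty (F' := L) P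
  rw [Place.mem_fiber] at hP'
  set τK : L ≃ₐ[K] L := τ.restrictScalars K with hτK
  set Q' : Place K L := τK • P' with hQ'
  have hQ'r : Q'.restrict F = P := by rw [hQ', hτK, restrict_tau_smul, hP']
  set X : Finset (Place K F) := insert P (E.support ∪ S) with hX
  set T : Finset (Place K L) := X.biUnion (fun v => v.fiber L) with hT
  have hT_mem : ∀ w : Place K L, w ∈ T ↔ w.restrict F ∈ X := by
    intro w
    rw [hT, Finset.mem_biUnion]
    constructor
    · rintro ⟨v, hv, hw⟩
      rw [Place.mem_fiber] at hw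
      rwa [hw]
    · intro h
      exact ⟨_, h, Place.restrict_mem_fiber w⟩
  have hEX : ∀ v : Place K F, v ∉ X → E v = 0 := by
    intro v hv
    by_contra h
    exact hv (Finset.mem_insert_of_mem (Finset.mem_union_left _ (Finsupp.mem_support_iff.mpr h)))
  have hPE : E P = 0 := by
    by_contra h
    exact hP (Finset.mem_union_left _ (Finsupp.mem_support_iff.mpr h))
  -- Step 2: the datum on the cover
  obtain ⟨D', w₁, hw₁, hD'deg, hD'T, hw₁ord⟩ := exists_cover_datum hdivL P' Q' T
  set B : Divisor K L := Finsupp.single P' (1 : ℤ) - Finsupp.single Q' 1 with hB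
  have hBw : ∀ w : Place K L, w ≠ P' → w ≠ Q' → B w = 0 := by
    intro w h1 h2
    rw [hB, Finsupp.sub_apply, Finsupp.single_eq_of_ne h1, Finsupp.single_eq_of_ne h2, sub_zero]
  -- Step 3: push forward
  have hE'X : ∀ v ∈ X, Divisor.pushforward F D' v = 0 := by
    intro v hv
    rw [Divisor.pushforward_apply]
    refine Finset.sum_eq_zero fun w _ => ?_
    split_ifs with h
    · have : w ∈ T := (hT_mem w).mpr (h ▸ hv)
      rw [hD'T w this, zero_mul]
    · rfl
  refine ⟨Divisor.pushforward F D', Algebra.norm F w₁, ?_, ?_,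
    fun v hv => hE'X v (Finset.mem_insert_of_mem (Finset.mem_union_left _ hv)),
    fun v hv => hE'X v (Finset.mem_insert_of_mem (Finset.mem_union_right _ hv)), ?_⟩
  · rw [Divisor.degree_pushforward, hD'deg]
  · refine ⟨Algebra.norm_ne_zero_iff.mpr hw₁, fun v => ?_⟩
    have key := FND.pushforwardNormFormula (K := K) (F := F) (F' := L) w₁ hw₁
      ((2 : ℕ) • D' - B) (fun w => by
        rw [hw₁ord w, Finsupp.sub_apply, Finsupp.smul_apply]
        simp) v
    have hB0 : Divisor.pushforward F B = 0 := by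
      rw [hB, map_sub, Divisor.pushforward_single, Divisor.pushforward_single, hP', hQ'r,
        FND.inertiaDeg_eq_one, FND.inertiaDeg_eq_one, sub_self]
    rw [← key, map_sub, map_nsmul, hB0, sub_zero]
  · -- Step 4: the evaluation identity
    have hdivg : ∀ v : Place K F, (2 : ℤ) * Divisor.pushforward F D' v
        = v.ord (Algebra.norm F w₁) := by
      intro v
      have key := FND.pushforwardNormFormula (K := K) (F := F) (F' := L) w₁ hw₁
        ((2 : ℕ) • D' - B) (fun w => by
          rw [hw₁ord w, Finsupp.sub_apply, Finsupp.smul_apply]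
          simp) v
      have hB0 : Divisor.pushforward F B = 0 := by
        rw [hB, map_sub, Divisor.pushforward_single, Divisor.pushforward_single, hP', hQ'r,
          FND.inertiaDeg_eq_one, FND.inertiaDeg_eq_one, sub_self]
      rw [← key, map_sub, map_nsmul, hB0, sub_zero, Finsupp.smul_apply]
      simp
    -- unit facts
    have hUz : ∀ w : Place K L, E (w.restrict F) = 0 → IsU w z := fun w h =>
      ⟨hz0, by rw [hzord w, h, mul_zero]⟩
    have hU1 : ∀ w ∈ D'.support, IsU w z := by
      intro w hw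
      refine hUz w (hEX _ fun hX' => ?_)
      exact (Finsupp.mem_support_iff.mp hw) (hD'T w ((hT_mem w).mpr hX'))
    have hU2 : IsU P' z := hUz P' (by rw [hP']; exact hPE)
    have hU2' : IsU Q' z := hUz Q' (by rw [hQ'r]; exact hPE)
    have hU4 : ∀ w : Place K L, E (w.restrict F) ≠ 0 → IsU w w₁ := by
      intro w hw
      have hwX : w.restrict F ∈ X := by
        by_contra h
        exact hw (hEX _ h)
      have h1 : w ≠ P' := by
        rintro rfl
        exact hw (by rw [hP']; exact hPE)
      have h2 : w ≠ Q' := by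
        rintro rfl
        exact hw (by rw [hQ'r]; exact hPE)
      exact ⟨hw₁, by rw [hw₁ord w, hD'T w ((hT_mem w).mpr hwX), hBw w h1 h2]; simp⟩
    -- (c1)-(c3)
    have c1 : edU f (Divisor.pushforward F D') = edU z D' + edU z D' := by
      rw [edU_pushforward (L := L), ← hz, sq, edU_mul hU1 hU1]
    -- (c4)
    have c4 : D' + D' = FND.divF w₁ + B := by
      ext w
      rw [Finsupp.add_apply, Finsupp.add_apply, FND.divF_apply, hw₁ord w]
      ring
    -- (c6)
    have c6 : evU P' z = -1 * evU Q' z := by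
      apply Units.ext
      rw [Units.val_mul, Units.val_neg, Units.val_one, evU_val hU2.evalAt_ne_zero,
        evU_val hU2'.evalAt_ne_zero]
      have hneg : IsU P' (-z) := ⟨neg_ne_zero.mpr hz0, by
        have h := hU2.2
        have e : -z = algebraMap K L (-1) * z := by rw [map_neg, map_one]; ring
        rw [e, P'.ord_mul (by simp) hz0, FND.ord_algebraMap, zero_add]
        exact h⟩
      have h1 := evalAt_smul_algEquiv τK P' hneg
      have h2 : τK (-z) = z := by
        rw [hτK, AlgEquiv.restrictScalars_apply, map_neg, hτ, neg_neg]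
      rw [h2] at h1
      have h3 : FND.evalAt P' (-z) = -FND.evalAt P' z := by
        have e : -z = algebraMap K L (-1) * z := by rw [map_neg, map_one]; ring
        rw [e, FND.evalAt_mul P' ((FND.mem_valuationSubring_iff P' _).mpr
          (by rw [FND.ord_algebraMap])) hU2.mem, FND.evalAt_algebraMap]
        ring
      rw [← hQ'] at h1
      rw [h1, h3]
      ring
    -- (c7) reciprocity on the cover
    have hdisj : Disjoint (FND.divF z : Divisor K L).support (FND.divF w₁ : Divisor K L).support := by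
      rw [Finset.disjoint_left]
      intro w hw hw'
      rw [Finsupp.mem_support_iff, FND.divF_apply] at hw hw'
      have hEw : E (w.restrict F) ≠ 0 := by
        intro h
        exact hw (by rw [hzord w, h, mul_zero])
      exact hw' (hU4 w hEw).2
    have hUzw : ∀ w ∈ (FND.divF w₁ : Divisor K L).support, IsU w z := by
      intro w hw
      rw [Finsupp.mem_support_iff, FND.divF_apply] at hw
      by_cases h1 : w = P'
      · rw [h1]; exact hU2
      by_cases h2 : w = Q'
      · rw [h2]; exact hU2'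
      refine hU1 w (Finsupp.mem_support_iff.mpr fun h0 => hw ?_)
      rw [hw₁ord w, h0, hBw w h1 h2]
      simp
    have hUwz : ∀ w ∈ (FND.divF z : Divisor K L).support, IsU w w₁ := by
      intro w hw
      rw [Finsupp.mem_support_iff, FND.divF_apply] at hw
      refine hU4 w fun h => hw ?_
      rw [hzord w, h, mul_zero]
    have c7 : edU z (FND.divF w₁ : Divisor K L) = edU w₁ (FND.divF z : Divisor K L) := by
      have h := FND.weil_reciprocity (K := K) hz0 hw₁ hdisj
      rw [evalDiv_eq_edU' hUzw, evalDiv_eq_edU' hUwz] at h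
      exact Additive.toMul.injective (Units.ext h)
    -- (c8)-(c9)
    have c8 : (FND.divF z : Divisor K L) = Divisor.pullback L E := by
      ext w
      rw [FND.divF_apply, Divisor.pullback_apply, hzord w]
    have c9 : edU w₁ (Divisor.pullback L E) = edU (Algebra.norm F w₁) E := by
      refine edU_pullback fun v hv w hw => hU4 w ?_
      rw [Place.mem_fiber.mp hw]
      exact Finsupp.mem_support_iff.mp hv
    -- assemble in `Additive Kˣ`
    have main : edU f (Divisor.pushforward F D')
        = edU (Algebra.norm F w₁) E + Additive.ofMul (-1 : Kˣ) := by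
      rw [c1, ← map_add, c4, map_add, c7, c8, c9, hB, map_sub, edU_single, edU_single, one_zsmul,
        one_zsmul, c6, ofMul_mul]
      abel
    -- back to `K`
    have hUf : ∀ v ∈ (Divisor.pushforward F D').support, IsU v f := by
      intro v hv
      refine ⟨hf0, ?_⟩
      have hvX : v ∉ X := fun h => (Finsupp.mem_support_iff.mp hv) (hE'X v h)
      rw [← hE.2 v, Finsupp.smul_apply, hEX v hvX]
      simp
    have hUg : ∀ v ∈ E.support, IsU v (Algebra.norm F w₁) := by
      intro v hv
      refine ⟨Algebra.norm_ne_zero_iff.mpr hw₁, ?_⟩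
      rw [← hdivg v, hE'X v (Finset.mem_insert_of_mem (Finset.mem_union_left _ hv)), mul_zero]
    rw [evalDiv_eq_edU' hUf, evalDiv_eq_edU' hUg, main, toMul_add, toMul_ofMul, Units.val_mul,
      Units.val_neg, Units.val_one]
    ring

end Cover

/-! ## 3. Independence of the representatives (Weil reciprocity on `F`) -/

section Indep

variable {K F : Type*} [Field K] [Field F] [Algebra K F]
variable [IsAlgClosed K] [CharZero K] [IsCurveOver K F] [Algebra.EssFiniteType K F]

omit [IsAlgClosed K] [CharZero K] [IsCurveOver K F] [Algebra.EssFiniteType K F] in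
theorem ord_sq' (v : Place K F) (k : F) : v.ord (k ^ 2) = 2 * v.ord k := by
  have := v.ord_zpow k 2
  rwa [zpow_ofNat] at this

omit [IsAlgClosed K] [CharZero K] [IsCurveOver K F] [Algebra.EssFiniteType K F] in
theorem isDivOf_two_mul {a : F} {A : Divisor K F} (ha : IsDivOf a (2 • A)) (v : Place K F) :
    v.ord a = 2 * A v := by
  rw [← ha.2 v, Finsupp.smul_apply]
  simp

/-- If `(A, a)` and `(B, b)` are two `2`-torsion data of the same class (`A - B = div k`) and
`(C, c)` is a third one, prime to both, then `a(C) c(B) = b(C) c(A)`. -/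
theorem pair_indep {A B C : Divisor K F} {a b c k : F}
    (ha : IsDivOf a (2 • A)) (hb : IsDivOf b (2 • B)) (hc : IsDivOf c (2 • C))
    (hk : IsDivOf k (A - B)) (hC : Divisor.degree C = 0)
    (hCA : ∀ v ∈ C.support, A v = 0) (hCB : ∀ v ∈ C.support, B v = 0) :
    FND.evalDiv a C * FND.evalDiv c B = FND.evalDiv b C * FND.evalDiv c A := by
  have ha0 := ha.1
  have hb0 := hb.1
  have hc0 := hc.1
  have hk0 := hk.1
  have hkv : ∀ v : Place K F, v.ord k = A v - B v := fun v => by
    rw [← hk.2 v, Finsupp.sub_apply]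
  have hbk0 : b * k ^ 2 ≠ 0 := mul_ne_zero hb0 (pow_ne_zero 2 hk0)
  have hbkv : ∀ v : Place K F, v.ord (b * k ^ 2) = 2 * A v := fun v => by
    rw [v.ord_mul hb0 (pow_ne_zero 2 hk0), ord_sq', isDivOf_two_mul hb, hkv]
    ring
  -- `a = λ b k²`
  obtain ⟨lam, hlam⟩ : ∃ lam : K, a * (b * k ^ 2)⁻¹ = algebraMap K F lam := by
    have hq0 : a * (b * k ^ 2)⁻¹ ≠ 0 := mul_ne_zero ha0 (inv_ne_zero hbk0)
    refine (FND.divF_eq_zero_iff hq0).mp ?_
    ext v
    rw [FND.divF_apply, v.ord_mul ha0 (inv_ne_zero hbk0), v.ord_inv, hbkv, isDivOf_two_mul ha]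
    simp
  have hlam0 : lam ≠ 0 := by
    rintro rfl
    rw [map_zero] at hlam
    exact (mul_ne_zero ha0 (inv_ne_zero hbk0)) hlam
  have hlamF : algebraMap K F lam ≠ 0 := by simpa using hlam0
  have ha_eq : a = algebraMap K F lam * (b * k ^ 2) := by
    rw [← hlam]
    field_simp
  -- units on `supp C`
  have hCb : ∀ v ∈ C.support, v.ord b = 0 := fun v hv => by
    rw [isDivOf_two_mul hb, hCB v hv, mul_zero]
  have hCk : ∀ v ∈ C.support, v.ord k = 0 := fun v hv => by
    rw [hkv, hCA v hv, hCB v hv, sub_zero]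
  have hCkk : ∀ v ∈ C.support, v.ord (k * k) = 0 := fun v hv => by
    rw [v.ord_mul hk0 hk0, hCk v hv, add_zero]
  have hCbk : ∀ v ∈ C.support, v.ord (b * (k * k)) = 0 := fun v hv => by
    rw [v.ord_mul hb0 (mul_ne_zero hk0 hk0), hCb v hv, hCkk v hv, add_zero]
  have hClam : ∀ v ∈ C.support, v.ord (algebraMap K F lam) = 0 := fun v _ =>
    FND.ord_algebraMap v lam
  have e1 : FND.evalDiv a C = FND.evalDiv b C * (FND.evalDiv k C * FND.evalDiv k C) := by
    rw [ha_eq, sq, FND.evalDiv_mul hlamF (mul_ne_zero hb0 (mul_ne_zero hk0 hk0)) hClam hCbk,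
      FND.evalDiv_algebraMap hlam0, hC, zpow_zero, one_mul,
      FND.evalDiv_mul hb0 (mul_ne_zero hk0 hk0) hCb hCkk, FND.evalDiv_mul hk0 hk0 hCk hCk]
  -- `c(A) = c(B) c(div k)`
  have hcv : ∀ v : Place K F, C v = 0 → v.ord c = 0 := fun v hv => by
    rw [isDivOf_two_mul hc, hv, mul_zero]
  have hCv : ∀ v : Place K F, A v ≠ 0 ∨ B v ≠ 0 → C v = 0 := by
    intro v hv
    by_contra h
    have hvC : v ∈ C.support := Finsupp.mem_support_iff.mpr h
    rcases hv with h1 | h1
    · exact h1 (hCA v hvC)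
    · exact h1 (hCB v hvC)
  have hAB : A = B + FND.divF k := by
    ext v
    rw [Finsupp.add_apply, FND.divF_apply, hkv]
    ring
  have hBc : ∀ v ∈ B.support, v.ord c = 0 := fun v hv =>
    hcv v (hCv v (Or.inr (Finsupp.mem_support_iff.mp hv)))
  have hkc : ∀ v ∈ (FND.divF k : Divisor K F).support, v.ord c = 0 := by
    intro v hv
    rw [Finsupp.mem_support_iff, FND.divF_apply, hkv] at hv
    refine hcv v (hCv v ?_)
    by_contra h
    rw [not_or, not_not, not_not] at h
    exact hv (by rw [h.1, h.2, sub_zero])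
  have hdisj : Disjoint (FND.divF c : Divisor K F).support (FND.divF k : Divisor K F).support := by
    rw [Finset.disjoint_left]
    intro v hv hv'
    rw [Finsupp.mem_support_iff, FND.divF_apply] at hv
    exact hv (hkc v hv')
  have hcC : (FND.divF c : Divisor K F) = C + C := by
    ext v
    rw [FND.divF_apply, Finsupp.add_apply, isDivOf_two_mul hc]
    ring
  have e2 : FND.evalDiv c A = FND.evalDiv c B * (FND.evalDiv k C * FND.evalDiv k C) := by
    rw [hAB, FND.evalDiv_add hc0 hBc hkc, FND.weil_reciprocity hc0 hk0 hdisj, hcC,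
      FND.evalDiv_add hk0 hCk hCk]
  rw [e1, e2]
  ring

end Indep

/-! ## 4. The quadratic cover `F[X]/(X² - f)` -/

section QCover

open Polynomial

variable {F : Type*} [Field F]

/-- The quadratic Kummer cover `F(√f) = F[X]/(X² - f)`. -/
abbrev QCover (f : F) : Type _ := AdjoinRoot (X ^ 2 - C f : F[X])

/-- `z = √f`. -/
abbrev QCover.z (f : F) : QCover f := AdjoinRoot.root (X ^ 2 - C f : F[X])

theorem QCover.z_sq (f : F) : QCover.z f ^ 2 = algebraMap F (QCover f) f := by
  have h := AdjoinRoot.eval₂_root (X ^ 2 - C f : F[X])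
  simp only [eval₂_sub, eval₂_pow, eval₂_X, eval₂_C, sub_eq_zero] at h
  exact h

/-- The `F`-algebra endomorphism `z ↦ -z`. -/
def QCover.tauHom (f : F) : QCover f →ₐ[F] QCover f :=
  AdjoinRoot.liftAlgHom (X ^ 2 - C f : F[X]) (Algebra.ofId F (QCover f)) (-QCover.z f) (by
    have h := QCover.z_sq f
    simp only [eval₂_sub, eval₂_pow, eval₂_X, eval₂_C, neg_sq, sub_eq_zero]
    exact h)

theorem QCover.tauHom_z (f : F) : QCover.tauHom f (QCover.z f) = -QCover.z f := by
  simp [QCover.tauHom, QCover.z]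

theorem QCover.tauHom_tauHom (f : F) :
    (QCover.tauHom f).comp (QCover.tauHom f) = AlgHom.id F _ := by
  apply AdjoinRoot.algHom_ext
  simp [QCover.tauHom_z]

/-- The involution `τ : z ↦ -z` of the cover. -/
def QCover.tau (f : F) : QCover f ≃ₐ[F] QCover f :=
  AlgEquiv.ofAlgHom (QCover.tauHom f) (QCover.tauHom f) (QCover.tauHom_tauHom f)
    (QCover.tauHom_tauHom f)

theorem QCover.tau_z (f : F) : QCover.tau f (QCover.z f) = -QCover.z f := QCover.tauHom_z f

instance QCover.instFinite (f : F) : Module.Finite F (QCover f) :=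
  (monic_X_pow_sub_C f (by norm_num)).finite_adjoinRoot

theorem QCover.irreducible_of_not_isSquare {f : F} (hf : ¬ IsSquare f) :
    Irreducible (X ^ 2 - C f : F[X]) :=
  (X_pow_sub_C_irreducible_iff_of_prime Nat.prime_two).mpr fun b hb => hf ⟨b, by rw [← hb, sq]⟩

end QCover

/-! ## 5. The final theorems -/

section Final

open Polynomial

variable {K : Type} [Field K] [IsAlgClosed K] [CharZero K]
  {F : Type} [Field F] [Algebra K F] [IsCurveOver K F] [Algebra.EssFiniteType K F]

/-- **WB, divisor form.**  If `div f = 2E` and `f` is not a square, there are `E'` of degree `0`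
and `g` with `div g = 2E'`, `E'` prime to `E` and to any given finite set `S`, and
`f(E') = - g(E)`. -/
theorem exists_pairing_neg (hdiv : DivisibleTwo K) {f : F} (hsq : ¬ IsSquare f)
    {E : Divisor K F} (hE : IsDivOf f (2 • E)) (S : Finset (Place K F)) :
    ∃ (E' : Divisor K F) (g : F), Divisor.degree E' = 0 ∧ IsDivOf g (2 • E') ∧
      (∀ v ∈ E.support, E' v = 0) ∧ (∀ v ∈ S, E' v = 0) ∧
      FND.evalDiv f E' = - FND.evalDiv g E := by
  have : Fact (Irreducible (X ^ 2 - C f : F[X])) := ⟨QCover.irreducible_of_not_isSquare hsq⟩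
  have : IsCurveOver K (QCover f) := FND.isCurveOver_of_finite K F (QCover f)
  have : Algebra.EssFiniteType K (QCover f) := FND.essFiniteType_of_finite K F (QCover f)
  exact exists_pairing_neg_of_cover (L := QCover f) (hdiv (QCover f)) (QCover.z_sq f)
    (QCover.tau f) (QCover.tau_z f) hE S

/-- The Weil pairing on `Pic0[2]` is non-degenerate (no torsion count needed). -/
theorem weil_nondegenerate_of_divisible (hdiv : DivisibleTwo K)
    (s : Pic0 K F) (hs : (2 : ℕ) • s = 0)
    (h : ∀ t : Pic0 K F, (2 : ℕ) • t = 0 → WeilTrivial t s) : s = 0 := by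
  classical
  by_contra hs0
  obtain ⟨E₀, rfl⟩ := Pic0.mk_surjective s
  -- `2E = div f`
  have hp : ((2 : ℕ) • E₀ : Divisor.degZero (K := K) (F := F)) ∈
      (Divisor.principal (K := K) (F := F)).addSubgroupOf
        (Divisor.degZero (K := K) (F := F)) :=
    (QuotientAddGroup.eq_zero_iff _).mp hs
  rw [AddSubgroup.mem_addSubgroupOf] at hp
  obtain ⟨f, hf0, hfE⟩ := hp
  set E : Divisor K F := (E₀ : Divisor K F) with hEdef
  have hE : IsDivOf f (2 • E) := ⟨hf0, fun v => by
    rw [← hfE v]
    rfl⟩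
  have hEdeg : Divisor.degree E = 0 := E₀.2
  -- `f` is not a square
  have hsq : ¬ IsSquare f := by
    rintro ⟨r, hr⟩
    have hr0 : r ≠ 0 := by
      rintro rfl
      rw [mul_zero] at hr
      exact hf0 hr
    apply hs0
    refine (QuotientAddGroup.eq_zero_iff _).mpr ?_
    rw [AddSubgroup.mem_addSubgroupOf]
    refine ⟨r, hr0, fun v => ?_⟩
    have h1 := isDivOf_two_mul hE v
    rw [hr, v.ord_mul hr0 hr0] at h1
    show E v = v.ord r
    linarith
  -- the class `t`
  obtain ⟨E', g, hE'deg, hg, hE'E, -, hval⟩ := exists_pairing_neg hdiv hsq hE ∅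
  have ht : (2 : ℕ) • Pic0.mk (⟨E', hE'deg⟩ : Divisor.degZero (K := K) (F := F)) = 0 := by
    refine (QuotientAddGroup.eq_zero_iff _).mpr ?_
    rw [AddSubgroup.mem_addSubgroupOf]
    exact ⟨g, hg.1, fun v => hg.2 v⟩
  obtain ⟨A, A', a, a', ⟨hAdeg, hAcl⟩, ⟨hA'deg, hA'cl⟩, hda, hda', hdisj, heq⟩ := h _ ht
  have heq' : FND.evalDiv a A' = FND.evalDiv a' A := heq
  -- `E' - A = div k₁`, `E - A' = div k₃`
  obtain ⟨k₁, hk₁0, hk₁⟩ : ∃ k₁ : F, k₁ ≠ 0 ∧ ∀ v : Place K F, (-A + E') v = v.ord k₁ := by
    have := QuotientAddGroup.eq.mp hAcl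
    rw [AddSubgroup.mem_addSubgroupOf] at this
    exact this
  obtain ⟨k₃, hk₃0, hk₃⟩ : ∃ k₃ : F, k₃ ≠ 0 ∧ ∀ v : Place K F, (-A' + E) v = v.ord k₃ := by
    have := QuotientAddGroup.eq.mp hA'cl
    rw [AddSubgroup.mem_addSubgroupOf] at this
    exact this
  -- moving lemma: `D = E' + div k₂` prime to `E` and `A'`
  obtain ⟨k₂, hk₂0, hk₂⟩ := FND.exists_ord_eq (E.support ∪ A'.support) (fun v => -E' v)
  set D : Divisor K F := E' + FND.divF k₂ with hD
  have hDv : ∀ v : Place K F, D v = E' v + v.ord k₂ := fun v => by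
    rw [hD, Finsupp.add_apply, FND.divF_apply]
  have hDdeg : Divisor.degree D = 0 := by rw [hD, map_add, FND.degree_divF, hE'deg, add_zero]
  have hDE : ∀ v ∈ E.support, D v = 0 := fun v hv => by
    rw [hDv, hk₂ v (Finset.mem_union_left _ hv), add_neg_cancel]
  have hDA' : ∀ v ∈ A'.support, D v = 0 := fun v hv => by
    rw [hDv, hk₂ v (Finset.mem_union_right _ hv), add_neg_cancel]
  have hd : IsDivOf (g * k₂ ^ 2) (2 • D) := by
    refine ⟨mul_ne_zero hg.1 (pow_ne_zero 2 hk₂0), fun v => ?_⟩
    rw [v.ord_mul hg.1 (pow_ne_zero 2 hk₂0), ord_sq', isDivOf_two_mul hg, Finsupp.smul_apply, hDv]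
    simp only [nsmul_eq_mul, Nat.cast_ofNat]
    ring
  -- supports
  have hAA' : ∀ v ∈ A'.support, A v = 0 := by
    intro v hv
    by_contra h0
    exact Finset.disjoint_left.mp hdisj (Finsupp.mem_support_iff.mpr h0) hv
  have hA'A : ∀ v ∈ A.support, A' v = 0 := by
    intro v hv
    by_contra h0
    exact Finset.disjoint_left.mp hdisj hv (Finsupp.mem_support_iff.mpr h0)
  have hDsuppA' : ∀ v ∈ D.support, A' v = 0 := by
    intro v hv
    by_contra h0
    exact (Finsupp.mem_support_iff.mp hv) (hDA' v (Finsupp.mem_support_iff.mpr h0))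
  have hDsuppE : ∀ v ∈ D.support, E v = 0 := by
    intro v hv
    by_contra h0
    exact (Finsupp.mem_support_iff.mp hv) (hDE v (Finsupp.mem_support_iff.mpr h0))
  -- Step A: first slot `A ↝ D`, second slot `A'`
  have hkA : IsDivOf (k₁⁻¹ * k₂⁻¹) (A - D) := by
    refine ⟨mul_ne_zero (inv_ne_zero hk₁0) (inv_ne_zero hk₂0), fun v => ?_⟩
    rw [v.ord_mul (inv_ne_zero hk₁0) (inv_ne_zero hk₂0), v.ord_inv, v.ord_inv, ← hk₁ v,
      Finsupp.sub_apply, hDv, Finsupp.add_apply, Finsupp.neg_apply]
    ring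
  have stepA := pair_indep hda hd hda' hkA hA'deg hAA' hDA'
  -- Step B: second slot `A' ↝ E`, first slot `D`
  have hkB : IsDivOf k₃⁻¹ (A' - E) := by
    refine ⟨inv_ne_zero hk₃0, fun v => ?_⟩
    rw [v.ord_inv, ← hk₃ v, Finsupp.sub_apply, Finsupp.add_apply, Finsupp.neg_apply]
    ring
  have stepB := pair_indep hda' hE hd hkB hDdeg hDsuppA' hDsuppE
  -- Step C: first slot `D ↝ E'`, second slot `E`
  have hkC : IsDivOf k₂ (D - E') := by
    refine ⟨hk₂0, fun v => ?_⟩
    rw [Finsupp.sub_apply, hDv]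
    ring
  have stepC := pair_indep hd hg hE hkC hEdeg hDE hE'E
  -- non-vanishing
  have n1 : FND.evalDiv a' A ≠ 0 :=
    FND.evalDiv_ne_zero (fun v hv => by rw [isDivOf_two_mul hda', hA'A v hv, mul_zero]) hda'.1
  have n2 : FND.evalDiv (g * k₂ ^ 2) A' ≠ 0 :=
    FND.evalDiv_ne_zero (fun v hv => by rw [isDivOf_two_mul hd, hDA' v hv, mul_zero]) hd.1
  have n3 : FND.evalDiv f D ≠ 0 :=
    FND.evalDiv_ne_zero (fun v hv => by rw [isDivOf_two_mul hE, hDsuppE v hv, mul_zero]) hE.1
  have n4 : FND.evalDiv g E ≠ 0 :=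
    FND.evalDiv_ne_zero (fun v hv => by rw [isDivOf_two_mul hg, hE'E v hv, mul_zero]) hg.1
  -- conclude
  rw [heq'] at stepA
  have α : FND.evalDiv a' D = FND.evalDiv (g * k₂ ^ 2) A' := by
    have := mul_left_cancel₀ n1 (by rw [stepA, mul_comm] : FND.evalDiv a' A * FND.evalDiv a' D
      = FND.evalDiv a' A * FND.evalDiv (g * k₂ ^ 2) A')
    exact this
  rw [α] at stepB
  have β : FND.evalDiv (g * k₂ ^ 2) E = FND.evalDiv f D := by
    have := mul_left_cancel₀ n2 (by rw [stepB, mul_comm] : FND.evalDiv (g * k₂ ^ 2) A'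
      * FND.evalDiv (g * k₂ ^ 2) E = FND.evalDiv (g * k₂ ^ 2) A' * FND.evalDiv f D)
    exact this
  rw [β] at stepC
  have γ : FND.evalDiv f E' = FND.evalDiv g E := by
    have := mul_left_cancel₀ n3 (by rw [stepC, mul_comm] : FND.evalDiv f D * FND.evalDiv f E'
      = FND.evalDiv f D * FND.evalDiv g E)
    exact this
  rw [hval] at γ
  have h2 : (2 : K) * FND.evalDiv g E = 0 := by linear_combination -γ
  rcases mul_eq_zero.mp h2 with h3 | h3
  · exact two_ne_zero h3
  · exact n4 h3

end Final

/-- **WB (main)**: the Weil pairing on `Pic0[2]` is non-degenerate — EXACTLY the frozen statement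
`Fermat.Agent.S17.WB.weil_nondegenerate` of helper5016's `WB/Skel.lean` v1 (`hcount` is not used). -/
theorem weil_nondegenerate {K : Type} [Field K] [IsAlgClosed K] [CharZero K]
    (_hcount : TorsionCountTwo K) (hdiv : DivisibleTwo K)
    {F : Type} [Field F] [Algebra K F] [IsCurveOver K F] [Algebra.EssFiniteType K F]
    (s : Pic0 K F) (hs : (2 : ℕ) • s = 0)
    (h : ∀ t : Pic0 K F, (2 : ℕ) • t = 0 → WeilTrivial t s) : s = 0 :=
  weil_nondegenerate_of_divisible hdiv s hs h

end Fermat.Agent.S17.WB.H4056
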