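/-
S17 / package WB — skeleton v1, INTEGRATED and CLOSED (sub-architect helper5016).
Frozen export: `weil_nondegenerate` (statement unchanged from v1; `hcount` unused).  WB0 (Tsen) is DROPPED:
the direct route does not use it.
  WB   helper4056  `WB/Main4056.lean`  (direct route on the quadratic cover `F[X]/(X² - f)`: 2-divisibility of
       Pic0 of the cover + Weil reciprocity on the cover and on F; uses the FND skeleton statements only)
B-routes (complete or nearly, NOT in the tree): origin/helper8256 internal skeleton (+ helper9454, helper4077,
helper8856, bridges helper7077/helper4054), origin/helper2877 `WB/WB_2877.lean`.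
-/
import Fermat.Agent.S17.W.Defs
import Fermat.Agent.S17.WB.Main4056

set_option autoImplicit false

namespace Fermat.Agent.S17.WB

open AlgebraicCurve Fermat.Agent.S17.W

/-- WB (main): the Weil pairing on `Pic0[2]` is non-degenerate. -/
theorem weil_nondegenerate {K : Type} [Field K] [IsAlgClosed K] [CharZero K]
    (hcount : TorsionCountTwo K) (hdiv : DivisibleTwo K)
    {F : Type} [Field F] [Algebra K F] [IsCurveOver K F] [Algebra.EssFiniteType K F]
    (s : Pic0 K F) (hs : (2 : ℕ) • s = 0)
    (h : ∀ t : Pic0 K F, (2 : ℕ) • t = 0 → WeilTrivial t s) : s = 0 :=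
  H4056.weil_nondegenerate hcount hdiv s hs h

end Fermat.Agent.S17.WB
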